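import Mathlib
import Fermat.Prelude.Def_GroupCohomology_ContinuousUnramified

/-!
# Pillar W3-PT (S55, Poitou–Tate): abstract framework, frozen definitions

Everything is stated for an abstract group `G` with a *level system* (a directed family of
subgroups, in practice normal of finite index), representations `ρ : Representation k G V`,
explicit inhomogeneous cochains in degrees `≤ 4` and *level-constant* (= continuous) cochains.

* `d0 … d3`            : the differentials `C⁰ → C¹ → C² → C³ → C⁴`.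
* `Lev G`              : level systems; `IsLC1/2/3` level-constant cochains; `lc1/2/3`.
* `Z1 Z2 Z3`, `B1 B2 B3`, `HH1 HH2 HH3` : continuous cocycles, coboundaries, cohomology.
* `Datum k`            : a global group with finitely many local groups `H v → G`
                         and a character `chi` (the module `T = k(chi)`, i.e. `μ_p`).
* `ZC1 ZC2 ZC3`, `BC1 BC2 BC3` : cocycles / coboundaries of the cone (compact support) complex.
* `cup…`, `pair1 pair2 pair3`  : cone cup products into the cone `3`-cochains of `T`,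
                         followed by a linear functional `tr` on these.
* `Perf1 Perf2 Perf3`, `QQ`, `PP` : perfectness of the duality pairings
                         `H^r_c(ρ) × H^{3-r}(σ) → k`, `r = 1, 2, 3`.
* local analogues `LDatum`, `LPerf0 LPerf1 LPerf2`, `LQQ`, `LPP`.
* `Sha1`, `Sha2`       : the abstract Tate–Shafarevich groups.
-/

set_option autoImplicit false

namespace Fermat.Agent.PT

/-! ## 1. Differentials of the inhomogeneous complex in degrees `0 … 3` -/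

section Diff

variable {k : Type} [CommRing k] {G : Type} [Group G]
variable {V : Type} [AddCommGroup V] [Module k V] (ρ : Representation k G V)

/-- `(d⁰ v)(g) = g v - v`. -/
def d0 : V →ₗ[k] (G → V) where
  toFun v g := ρ g v - v
  map_add' v w := by funext g; simp only [map_add, Pi.add_apply]; abel
  map_smul' c v := by funext g; simp [smul_sub]

/-- `(d¹ f)(g, h) = g f(h) - f(gh) + f(g)`. -/
def d1 : (G → V) →ₗ[k] (G × G → V) where
  toFun f p := ρ p.1 (f p.2) - f (p.1 * p.2) + f p.1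
  map_add' f f' := by funext p; simp only [Pi.add_apply, map_add]; abel
  map_smul' c f := by funext p; simp [smul_sub, smul_add]

/-- `(d² f)(g, h, j) = g f(h, j) - f(gh, j) + f(g, hj) - f(g, h)`. -/
def d2 : (G × G → V) →ₗ[k] (G × G × G → V) where
  toFun f p := ρ p.1 (f (p.2.1, p.2.2)) - f (p.1 * p.2.1, p.2.2) + f (p.1, p.2.1 * p.2.2)
    - f (p.1, p.2.1)
  map_add' f f' := by funext p; simp only [Pi.add_apply, map_add]; abel
  map_smul' c f := by funext p; simp [smul_sub, smul_add]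

/-- `(d³ f)(g, h, j, l) = g f(h, j, l) - f(gh, j, l) + f(g, hj, l) - f(g, h, jl) + f(g, h, j)`. -/
def d3 : (G × G × G → V) →ₗ[k] (G × G × G × G → V) where
  toFun f p := ρ p.1 (f (p.2.1, p.2.2.1, p.2.2.2)) - f (p.1 * p.2.1, p.2.2.1, p.2.2.2)
    + f (p.1, p.2.1 * p.2.2.1, p.2.2.2) - f (p.1, p.2.1, p.2.2.1 * p.2.2.2)
    + f (p.1, p.2.1, p.2.2.1)
  map_add' f f' := by funext p; simp only [Pi.add_apply, map_add]; abel
  map_smul' c f := by funext p; simp [smul_sub, smul_add]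

@[simp] lemma d0_apply (v : V) (g : G) : d0 ρ v g = ρ g v - v := rfl

@[simp] lemma d1_apply (f : G → V) (g h : G) :
    d1 ρ f (g, h) = ρ g (f h) - f (g * h) + f g := rfl

@[simp] lemma d2_apply (f : G × G → V) (g h j : G) :
    d2 ρ f (g, h, j) = ρ g (f (h, j)) - f (g * h, j) + f (g, h * j) - f (g, h) := rfl

@[simp] lemma d3_apply (f : G × G × G → V) (g h j l : G) :
    d3 ρ f (g, h, j, l) = ρ g (f (h, j, l)) - f (g * h, j, l) + f (g, h * j, l)
      - f (g, h, j * l) + f (g, h, j) := rfl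

end Diff

/-! ## 2. Level systems and level-constant cochains -/

/-- A level system: a nonempty directed family of subgroups (the basic open subgroups). -/
structure Lev (G : Type) [Group G] where
  /-- the basic open subgroups -/
  sets : Set (Subgroup G)
  nonempty : sets.Nonempty
  directed : ∀ N₁ ∈ sets, ∀ N₂ ∈ sets, ∃ N ∈ sets, N ≤ N₁ ⊓ N₂

namespace Lev

variable {G : Type} [Group G] (L : Lev G)

/-- All levels are normal of finite index. -/
def Good : Prop := ∀ N ∈ L.sets, N.Normal ∧ N.FiniteIndex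

/-- `U` is open: it contains a level. -/
def IsOpen (U : Subgroup G) : Prop := ∃ N ∈ L.sets, N ≤ U

/-- The pulled back level system along a group homomorphism. -/
def comap {H : Type} [Group H] (f : H →* G) : Lev H where
  sets := {N' | ∃ N ∈ L.sets, N' = N.comap f}
  nonempty := by
    obtain ⟨N, hN⟩ := L.nonempty
    exact ⟨N.comap f, N, hN, rfl⟩
  directed := by
    rintro _ ⟨N₁, h₁, rfl⟩ _ ⟨N₂, h₂, rfl⟩
    obtain ⟨N, hN, hle⟩ := L.directed N₁ h₁ N₂ h₂
    refine ⟨N.comap f, ⟨N, hN, rfl⟩, ?_⟩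
    rw [← Subgroup.comap_inf]
    exact Subgroup.comap_mono hle

end Lev

section LC

variable {G : Type} [Group G] (L : Lev G)

/-- Level-constant `1`-cochains. -/
def IsLC1 {X : Type*} (f : G → X) : Prop :=
  ∃ N ∈ L.sets, ∀ g s : G, s ∈ N → f (g * s) = f g

/-- Level-constant `2`-cochains. -/
def IsLC2 {X : Type*} (f : G × G → X) : Prop :=
  ∃ N ∈ L.sets, ∀ g g' s s' : G, s ∈ N → s' ∈ N → f (g * s, g' * s') = f (g, g')

/-- Level-constant `3`-cochains. -/
def IsLC3 {X : Type*} (f : G × G × G → X) : Prop :=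
  ∃ N ∈ L.sets, ∀ g g' g'' s s' s'' : G, s ∈ N → s' ∈ N → s'' ∈ N →
    f (g * s, g' * s', g'' * s'') = f (g, g', g'')

variable {L}

lemma IsLC1.add {X : Type*} [Add X] {f f' : G → X} (hf : IsLC1 L f) (hf' : IsLC1 L f') :
    IsLC1 L (f + f') := by
  obtain ⟨N₁, h₁, hf⟩ := hf
  obtain ⟨N₂, h₂, hf'⟩ := hf'
  obtain ⟨N, hN, hle⟩ := L.directed N₁ h₁ N₂ h₂
  refine ⟨N, hN, fun g s hs => ?_⟩
  simp only [Pi.add_apply]
  rw [hf g s (hle hs).1, hf' g s (hle hs).2]

lemma IsLC2.add {X : Type*} [Add X] {f f' : G × G → X} (hf : IsLC2 L f) (hf' : IsLC2 L f') :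
    IsLC2 L (f + f') := by
  obtain ⟨N₁, h₁, hf⟩ := hf
  obtain ⟨N₂, h₂, hf'⟩ := hf'
  obtain ⟨N, hN, hle⟩ := L.directed N₁ h₁ N₂ h₂
  refine ⟨N, hN, fun g g' s s' hs hs' => ?_⟩
  simp only [Pi.add_apply]
  rw [hf g g' s s' (hle hs).1 (hle hs').1, hf' g g' s s' (hle hs).2 (hle hs').2]

lemma IsLC3.add {X : Type*} [Add X] {f f' : G × G × G → X} (hf : IsLC3 L f)
    (hf' : IsLC3 L f') : IsLC3 L (f + f') := by
  obtain ⟨N₁, h₁, hf⟩ := hf
  obtain ⟨N₂, h₂, hf'⟩ := hf'
  obtain ⟨N, hN, hle⟩ := L.directed N₁ h₁ N₂ h₂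
  refine ⟨N, hN, fun g g' g'' s s' s'' hs hs' hs'' => ?_⟩
  simp only [Pi.add_apply]
  rw [hf g g' g'' s s' s'' (hle hs).1 (hle hs').1 (hle hs'').1,
    hf' g g' g'' s s' s'' (hle hs).2 (hle hs').2 (hle hs'').2]

lemma IsLC1.comp {X Y : Type*} {f : G → X} (hf : IsLC1 L f) (φ : X → Y) : IsLC1 L (φ ∘ f) := by
  obtain ⟨N, hN, h⟩ := hf
  exact ⟨N, hN, fun g s hs => by simp only [Function.comp_apply, h g s hs]⟩

lemma IsLC2.comp {X Y : Type*} {f : G × G → X} (hf : IsLC2 L f) (φ : X → Y) :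
    IsLC2 L (φ ∘ f) := by
  obtain ⟨N, hN, h⟩ := hf
  exact ⟨N, hN, fun g g' s s' hs hs' => by simp only [Function.comp_apply, h g g' s s' hs hs']⟩

lemma IsLC3.comp {X Y : Type*} {f : G × G × G → X} (hf : IsLC3 L f) (φ : X → Y) :
    IsLC3 L (φ ∘ f) := by
  obtain ⟨N, hN, h⟩ := hf
  exact ⟨N, hN, fun g g' g'' s s' s'' hs hs' hs'' => by
    simp only [Function.comp_apply, h g g' g'' s s' s'' hs hs' hs'']⟩

variable (L)

lemma isLC1_const {X : Type*} (x : X) : IsLC1 L (fun _ : G => x) := by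
  obtain ⟨N, hN⟩ := L.nonempty
  exact ⟨N, hN, fun _ _ _ => rfl⟩

lemma isLC2_const {X : Type*} (x : X) : IsLC2 L (fun _ : G × G => x) := by
  obtain ⟨N, hN⟩ := L.nonempty
  exact ⟨N, hN, fun _ _ _ _ _ _ => rfl⟩

lemma isLC3_const {X : Type*} (x : X) : IsLC3 L (fun _ : G × G × G => x) := by
  obtain ⟨N, hN⟩ := L.nonempty
  exact ⟨N, hN, fun _ _ _ _ _ _ _ _ _ => rfl⟩

variable (k : Type) [CommRing k] (V : Type) [AddCommGroup V] [Module k V]

/-- The submodule of level-constant `1`-cochains. -/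
def lc1 : Submodule k (G → V) where
  carrier := {f | IsLC1 L f}
  add_mem' hf hf' := hf.add hf'
  zero_mem' := isLC1_const L (0 : V)
  smul_mem' c _ hf := hf.comp (c • ·)

/-- The submodule of level-constant `2`-cochains. -/
def lc2 : Submodule k (G × G → V) where
  carrier := {f | IsLC2 L f}
  add_mem' hf hf' := hf.add hf'
  zero_mem' := isLC2_const L (0 : V)
  smul_mem' c _ hf := hf.comp (c • ·)

/-- The submodule of level-constant `3`-cochains. -/
def lc3 : Submodule k (G × G × G → V) where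
  carrier := {f | IsLC3 L f}
  add_mem' hf hf' := hf.add hf'
  zero_mem' := isLC3_const L (0 : V)
  smul_mem' c _ hf := hf.comp (c • ·)

variable {k V}

@[simp] lemma mem_lc1 (f : G → V) : f ∈ lc1 L k V ↔ IsLC1 L f := Iff.rfl
@[simp] lemma mem_lc2 (f : G × G → V) : f ∈ lc2 L k V ↔ IsLC2 L f := Iff.rfl
@[simp] lemma mem_lc3 (f : G × G × G → V) : f ∈ lc3 L k V ↔ IsLC3 L f := Iff.rfl

end LC

/-! ## 3. Continuous cocycles, coboundaries, cohomology -/

section Coh

variable {k : Type} [CommRing k] {G : Type} [Group G] (L : Lev G)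
variable {V : Type} [AddCommGroup V] [Module k V] (ρ : Representation k G V)

/-- The representation is discrete (smooth): every vector is fixed by a level. -/
def IsDisc : Prop := ∀ v : V, ∃ N ∈ L.sets, ∀ s ∈ N, ρ s v = v

/-- Continuous `1`-cocycles. -/
def Z1 : Submodule k (G → V) := LinearMap.ker (d1 ρ) ⊓ lc1 L k V
/-- Continuous `2`-cocycles. -/
def Z2 : Submodule k (G × G → V) := LinearMap.ker (d2 ρ) ⊓ lc2 L k V
/-- Continuous `3`-cocycles. -/
def Z3 : Submodule k (G × G × G → V) := LinearMap.ker (d3 ρ) ⊓ lc3 L k V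

/-- `1`-coboundaries (all of them; they are level-constant when `ρ` is discrete). -/
def B1 : Submodule k (G → V) := LinearMap.range (d0 ρ)
/-- Continuous `2`-coboundaries: `d¹` of level-constant `1`-cochains. -/
def B2 : Submodule k (G × G → V) := (lc1 L k V).map (d1 ρ)
/-- Continuous `3`-coboundaries: `d²` of level-constant `2`-cochains. -/
def B3 : Submodule k (G × G × G → V) := (lc2 L k V).map (d2 ρ)

/-- `H¹` of level-constant cochains. -/
abbrev HH1 : Type := ↥(Z1 L ρ) ⧸ (B1 ρ).comap (Z1 L ρ).subtype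
/-- `H²` of level-constant cochains. -/
abbrev HH2 : Type := ↥(Z2 L ρ) ⧸ (B2 L ρ).comap (Z2 L ρ).subtype
/-- `H³` of level-constant cochains. -/
abbrev HH3 : Type := ↥(Z3 L ρ) ⧸ (B3 L ρ).comap (Z3 L ρ).subtype

/-- `H³ = 0`. -/
def H3Vanishes : Prop := Z3 L ρ ≤ B3 L ρ

lemma mem_Z1 (f : G → V) : f ∈ Z1 L ρ ↔ d1 ρ f = 0 ∧ IsLC1 L f := Iff.rfl
lemma mem_Z2 (f : G × G → V) : f ∈ Z2 L ρ ↔ d2 ρ f = 0 ∧ IsLC2 L f := Iff.rfl
lemma mem_Z3 (f : G × G × G → V) : f ∈ Z3 L ρ ↔ d3 ρ f = 0 ∧ IsLC3 L f := Iff.rfl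
lemma mem_B1 (f : G → V) : f ∈ B1 ρ ↔ ∃ v : V, d0 ρ v = f := Iff.rfl
lemma mem_B2 (f : G × G → V) : f ∈ B2 L ρ ↔ ∃ x : G → V, IsLC1 L x ∧ d1 ρ x = f := by
  simp only [B2, Submodule.mem_map, mem_lc1]
lemma mem_B3 (f : G × G × G → V) :
    f ∈ B3 L ρ ↔ ∃ x : G × G → V, IsLC2 L x ∧ d2 ρ x = f := by
  simp only [B3, Submodule.mem_map, mem_lc2]

end Coh


/-! ## 4. Restriction, the module `T = k(χ)`, twisted duals, permutation modules -/

section Res

variable (k : Type) [CommRing k] {G H : Type} [Group G] [Group H]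
variable (V : Type) [AddCommGroup V] [Module k V]

/-- Restriction of `1`-cochains along `f : H →* G`. -/
def res1 (f : H →* G) : (G → V) →ₗ[k] (H → V) := LinearMap.funLeft k V f
/-- Restriction of `2`-cochains along `f : H →* G`. -/
def res2 (f : H →* G) : (G × G → V) →ₗ[k] (H × H → V) :=
  LinearMap.funLeft k V (fun p : H × H => (f p.1, f p.2))
/-- Restriction of `3`-cochains along `f : H →* G`. -/
def res3 (f : H →* G) : (G × G × G → V) →ₗ[k] (H × H × H → V) :=
  LinearMap.funLeft k V (fun p : H × H × H => (f p.1, f p.2.1, f p.2.2))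

variable {k V}

@[simp] lemma res1_apply (f : H →* G) (a : G → V) (h : H) :
    res1 k V f a h = a (f h) := rfl
@[simp] lemma res2_apply (f : H →* G) (a : G × G → V) (h h' : H) :
    res2 k V f a (h, h') = a (f h, f h') := rfl
@[simp] lemma res3_apply (f : H →* G) (a : G × G × G → V) (h h' h'' : H) :
    res3 k V f a (h, h', h'') = a (f h, f h', f h'') := rfl

/-- Restriction of a representation along `f : H →* G`. -/
def resRep (ρ : Representation k G V) (f : H →* G) : Representation k H V :=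
  MonoidHom.comp ρ f

@[simp] lemma resRep_apply (ρ : Representation k G V) (f : H →* G) (h : H) :
    resRep ρ f h = ρ (f h) := rfl

end Res

section Twist

variable {k : Type} [CommRing k] {G : Type} [Group G]

/-- The rank one module `T = k(χ)`. -/
def chiRep (χ : G →* kˣ) : Representation k G k :=
  (Representation.trivial k G k).twist χ

@[simp] lemma chiRep_apply (χ : G →* kˣ) (g : G) (t : k) : chiRep χ g t = (χ g : k) * t := by
  simp [chiRep, Representation.twist_apply_apply]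

variable {V : Type} [AddCommGroup V] [Module k V]

/-- The twisted dual `ρ^D = Hom(ρ, k(χ))` (the representation of `Rep.dualTwist`). -/
def dualTw (χ : G →* kˣ) (ρ : Representation k G V) : Representation k G (Module.Dual k V) :=
  ρ.dual.twist χ

lemma dualTw_apply (χ : G →* kˣ) (ρ : Representation k G V) (g : G) (f : Module.Dual k V) :
    dualTw χ ρ g f = (χ g : k) • (f ∘ₗ ρ g⁻¹) := rfl

/-- The permutation module `Fun(G/U, k)` with `(g f)(x) = f(g⁻¹ x)`
(`= Ind_U^G k = k[G/U]` when `U` has finite index). -/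
def permRep (k : Type) [CommRing k] {G : Type} [Group G] (U : Subgroup G) :
    Representation k G ((G ⧸ U) → k) where
  toFun g := LinearMap.funLeft k k (fun x : G ⧸ U => g⁻¹ • x)
  map_one' := by
    ext f x
    simp [LinearMap.funLeft_apply]
  map_mul' g h := by
    ext f x
    simp [LinearMap.funLeft_apply, mul_smul]

@[simp] lemma permRep_apply (k : Type) [CommRing k] {G : Type} [Group G] (U : Subgroup G)
    (g : G) (f : (G ⧸ U) → k) (x : G ⧸ U) : permRep k U g f x = f (g⁻¹ • x) := rfl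

/-- `β : V × W → k(χ)` is equivariant. -/
def IsEquivariant (χ : G →* kˣ) {W : Type} [AddCommGroup W] [Module k W]
    (ρ : Representation k G V) (σ : Representation k G W) (β : V →ₗ[k] W →ₗ[k] k) : Prop :=
  ∀ (g : G) (v : V) (w : W), β (ρ g v) (σ g w) = (χ g : k) * β v w

end Twist

/-! ## 5. Cup products (inhomogeneous cochains, values paired by `β`) -/

section Cup

variable {k : Type} [CommRing k] {G : Type} [Group G]
variable {V W : Type} [AddCommGroup V] [Module k V] [AddCommGroup W] [Module k W]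
variable (β : V →ₗ[k] W →ₗ[k] k) (σ : Representation k G W)

/-- `(v ∪ y)(g, h) = β(v, y(g, h))`. -/
def cup02 (v : V) (y : G × G → W) : G × G → k := fun p => β v (y p)
/-- `(b ∪ y)(g, h) = β(b(g), g y(h))`. -/
def cup11 (b : G → V) (y : G → W) : G × G → k := fun p => β (b p.1) (σ p.1 (y p.2))
/-- `(b ∪ w)(g, h) = β(b(g, h), gh w)`. -/
def cup20 (b : G × G → V) (w : W) : G × G → k := fun p => β (b p) (σ (p.1 * p.2) w)
/-- `(a ∪ y)(g, h, j) = β(a(g), g y(h, j))`. -/
def cup12 (a : G → V) (y : G × G → W) : G × G × G → k :=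
  fun p => β (a p.1) (σ p.1 (y (p.2.1, p.2.2)))
/-- `(a ∪ y)(g, h, j) = β(a(g, h), gh y(j))`. -/
def cup21 (a : G × G → V) (y : G → W) : G × G × G → k :=
  fun p => β (a (p.1, p.2.1)) (σ (p.1 * p.2.1) (y p.2.2))
/-- `(a ∪ w)(g, h, j) = β(a(g, h, j), ghj w)`. -/
def cup30 (a : G × G × G → V) (w : W) : G × G × G → k :=
  fun p => β (a p) (σ (p.1 * p.2.1 * p.2.2) w)

@[simp] lemma cup02_apply (v : V) (y : G × G → W) (g h : G) :
    cup02 β v y (g, h) = β v (y (g, h)) := rfl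
@[simp] lemma cup11_apply (b : G → V) (y : G → W) (g h : G) :
    cup11 β σ b y (g, h) = β (b g) (σ g (y h)) := rfl
@[simp] lemma cup20_apply (b : G × G → V) (w : W) (g h : G) :
    cup20 β σ b w (g, h) = β (b (g, h)) (σ (g * h) w) := rfl
@[simp] lemma cup12_apply (a : G → V) (y : G × G → W) (g h j : G) :
    cup12 β σ a y (g, h, j) = β (a g) (σ g (y (h, j))) := rfl
@[simp] lemma cup21_apply (a : G × G → V) (y : G → W) (g h j : G) :
    cup21 β σ a y (g, h, j) = β (a (g, h)) (σ (g * h) (y j)) := rfl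
@[simp] lemma cup30_apply (a : G × G × G → V) (w : W) (g h j : G) :
    cup30 β σ a w (g, h, j) = β (a (g, h, j)) (σ (g * h * j) w) := rfl

end Cup

/-! ## 6. Global data, the cone complex -/

/-- A global group with finitely many local groups and a character. No proofs inside:
the required properties are `Datum.Good`. -/
structure Datum (k : Type) [Field k] where
  /-- the global group -/
  G : Type
  [grp : Group G]
  /-- the global levels -/
  lev : Lev G
  /-- the character of `T` (the mod `p` cyclotomic character) -/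
  chi : G →* kˣ
  /-- the (finite) places -/
  P : Type
  [fin : Fintype P]
  [dec : DecidableEq P]
  /-- the local groups -/
  H : P → Type
  [grpH : ∀ v, Group (H v)]
  /-- local to global -/
  loc : ∀ v, H v →* G
  /-- the local levels -/
  levH : ∀ v, Lev (H v)

attribute [instance] Datum.grp Datum.fin Datum.dec Datum.grpH

namespace Datum

variable {k : Type} [Field k] (D : Datum k)

/-- The properties of a datum used by the abstract theorems. -/
def Good : Prop :=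
  D.lev.Good ∧ (∀ v, (D.levH v).Good) ∧ Nonempty D.P ∧
    (∀ v, ∀ N ∈ D.lev.sets, ∃ N' ∈ (D.levH v).sets, N' ≤ N.comap (D.loc v)) ∧
    (∃ N ∈ D.lev.sets, ∀ s ∈ N, D.chi s = 1)

/-- The local character at `v`. -/
def chiAt (v : D.P) : D.H v →* kˣ := D.chi.comp (D.loc v)

variable {V : Type} [AddCommGroup V] [Module k V] (ρ : Representation k D.G V)

/-- The restriction of `ρ` to the local group at `v`. -/
def repAt (v : D.P) : Representation k (D.H v) V := resRep ρ (D.loc v)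

/-- Cone cochains in degree 1, 2, 3, 4. -/
abbrev CC1 (V : Type) : Type := (D.G → V) × (D.P → V)
abbrev CC2 (V : Type) : Type := (D.G × D.G → V) × (∀ v : D.P, D.H v → V)
abbrev CC3 (V : Type) : Type := (D.G × D.G × D.G → V) × (∀ v : D.P, D.H v × D.H v → V)
abbrev CC4 (V : Type) : Type :=
  (D.G × D.G × D.G × D.G → V) × (∀ v : D.P, D.H v × D.H v × D.H v → V)

/-- Cone differential `C⁰_c = V → C¹_c`: `α ↦ (d⁰ α, (α)_v)`. -/
def coneD0 : V →ₗ[k] D.CC1 V :=
  LinearMap.prod (d0 ρ) (LinearMap.pi fun _ => LinearMap.id)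

/-- Cone differential `C¹_c → C²_c`: `(α, β) ↦ (d¹ α, (res_v α - d⁰ β_v)_v)`. -/
def coneD1 : D.CC1 V →ₗ[k] D.CC2 V :=
  LinearMap.prod (d1 ρ ∘ₗ LinearMap.fst k _ _)
    (LinearMap.pi fun v => res1 k V (D.loc v) ∘ₗ LinearMap.fst k _ _
      - d0 (D.repAt ρ v) ∘ₗ LinearMap.proj v ∘ₗ LinearMap.snd k _ _)

/-- Cone differential `C²_c → C³_c`: `(α, β) ↦ (d² α, (res_v α - d¹ β_v)_v)`. -/
def coneD2 : D.CC2 V →ₗ[k] D.CC3 V :=
  LinearMap.prod (d2 ρ ∘ₗ LinearMap.fst k _ _)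
    (LinearMap.pi fun v => res2 k V (D.loc v) ∘ₗ LinearMap.fst k _ _
      - d1 (D.repAt ρ v) ∘ₗ LinearMap.proj v ∘ₗ LinearMap.snd k _ _)

/-- Cone differential `C³_c → C⁴_c`: `(α, β) ↦ (d³ α, (res_v α - d² β_v)_v)`. -/
def coneD3 : D.CC3 V →ₗ[k] D.CC4 V :=
  LinearMap.prod (d3 ρ ∘ₗ LinearMap.fst k _ _)
    (LinearMap.pi fun v => res3 k V (D.loc v) ∘ₗ LinearMap.fst k _ _
      - d2 (D.repAt ρ v) ∘ₗ LinearMap.proj v ∘ₗ LinearMap.snd k _ _)

@[simp] lemma coneD0_apply (α : V) : D.coneD0 ρ α = (d0 ρ α, fun _ => α) := rfl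
@[simp] lemma coneD1_apply (z : D.CC1 V) :
    D.coneD1 ρ z = (d1 ρ z.1, fun v => res1 k V (D.loc v) z.1 - d0 (D.repAt ρ v) (z.2 v)) := rfl
@[simp] lemma coneD2_apply (z : D.CC2 V) :
    D.coneD2 ρ z = (d2 ρ z.1, fun v => res2 k V (D.loc v) z.1 - d1 (D.repAt ρ v) (z.2 v)) := rfl
@[simp] lemma coneD3_apply (z : D.CC3 V) :
    D.coneD3 ρ z = (d3 ρ z.1, fun v => res3 k V (D.loc v) z.1 - d2 (D.repAt ρ v) (z.2 v)) := rfl

/-- Level-constant cone cochains. -/
def lcC1 (V : Type) [AddCommGroup V] [Module k V] : Submodule k (D.CC1 V) :=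
  Submodule.prod (lc1 D.lev k V) ⊤
def lcC2 (V : Type) [AddCommGroup V] [Module k V] : Submodule k (D.CC2 V) :=
  Submodule.prod (lc2 D.lev k V) (Submodule.pi Set.univ fun v => lc1 (D.levH v) k V)
def lcC3 (V : Type) [AddCommGroup V] [Module k V] : Submodule k (D.CC3 V) :=
  Submodule.prod (lc3 D.lev k V) (Submodule.pi Set.univ fun v => lc2 (D.levH v) k V)

/-- Cone cocycles. -/
def ZC1 : Submodule k (D.CC1 V) := LinearMap.ker (D.coneD1 ρ) ⊓ D.lcC1 V
def ZC2 : Submodule k (D.CC2 V) := LinearMap.ker (D.coneD2 ρ) ⊓ D.lcC2 V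
def ZC3 : Submodule k (D.CC3 V) := LinearMap.ker (D.coneD3 ρ) ⊓ D.lcC3 V

/-- Cone coboundaries. -/
def BC1 : Submodule k (D.CC1 V) := LinearMap.range (D.coneD0 ρ)
def BC2 : Submodule k (D.CC2 V) := (D.lcC1 V).map (D.coneD1 ρ)
def BC3 : Submodule k (D.CC3 V) := (D.lcC2 V).map (D.coneD2 ρ)

/-- Compact support cohomology. -/
abbrev HC1 : Type := ↥(D.ZC1 ρ) ⧸ (D.BC1 ρ).comap (D.ZC1 ρ).subtype
abbrev HC2 : Type := ↥(D.ZC2 ρ) ⧸ (D.BC2 ρ).comap (D.ZC2 ρ).subtype
abbrev HC3 : Type := ↥(D.ZC3 ρ) ⧸ (D.BC3 ρ).comap (D.ZC3 ρ).subtype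

/-! ### Tate–Shafarevich groups -/

/-- `1`-cocycles which are locally coboundaries. -/
def ZSha1 : Submodule k (D.G → V) :=
  Z1 D.lev ρ ⊓ ⨅ v, (B1 (D.repAt ρ v)).comap (res1 k V (D.loc v))

/-- `2`-cocycles which are locally (continuous) coboundaries. -/
def ZSha2 : Submodule k (D.G × D.G → V) :=
  Z2 D.lev ρ ⊓ ⨅ v, (B2 (D.levH v) (D.repAt ρ v)).comap (res2 k V (D.loc v))

/-- `Ш¹`. -/
abbrev Sha1 : Type := ↥(D.ZSha1 ρ) ⧸ (B1 ρ).comap (D.ZSha1 ρ).subtype
/-- `Ш²`. -/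
abbrev Sha2 : Type := ↥(D.ZSha2 ρ) ⧸ (B2 D.lev ρ).comap (D.ZSha2 ρ).subtype

/-! ### The duality pairings -/

variable {W : Type} [AddCommGroup W] [Module k W] (σ : Representation k D.G W)
variable (tr : D.CC3 k →ₗ[k] k) (β : V →ₗ[k] W →ₗ[k] k)

/-- `tr` kills the cone coboundaries of `T = k(χ)`. -/
def TrOK : Prop := ∀ c ∈ D.BC3 (chiRep D.chi), tr c = 0

/-- The pairing `C¹_c(ρ) × C²(σ) → k`. -/
def pair1 (z : D.CC1 V) (y : D.G × D.G → W) : k :=
  tr (cup12 β σ z.1 y, fun v => cup02 β (z.2 v) (res2 k W (D.loc v) y))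

/-- The pairing `C²_c(ρ) × C¹(σ) → k`. -/
def pair2 (z : D.CC2 V) (y : D.G → W) : k :=
  tr (cup21 β σ z.1 y, fun v => cup11 β (D.repAt σ v) (z.2 v) (res1 k W (D.loc v) y))

/-- The pairing `C³_c(ρ) × C⁰(σ) → k`. -/
def pair3 (z : D.CC3 V) (w : W) : k :=
  tr (cup30 β σ z.1 w, fun v => cup20 β (D.repAt σ v) (z.2 v) w)

/-- `H¹_c(ρ) × H²(σ) → k` is perfect. -/
def Perf1 : Prop :=
  (∀ z ∈ D.ZC1 ρ, (∀ y ∈ Z2 D.lev σ, D.pair1 σ tr β z y = 0) → z ∈ D.BC1 ρ) ∧
  (∀ y ∈ Z2 D.lev σ, (∀ z ∈ D.ZC1 ρ, D.pair1 σ tr β z y = 0) → y ∈ B2 D.lev σ)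

/-- `H²_c(ρ) × H¹(σ) → k` is perfect. -/
def Perf2 : Prop :=
  (∀ z ∈ D.ZC2 ρ, (∀ y ∈ Z1 D.lev σ, D.pair2 σ tr β z y = 0) → z ∈ D.BC2 ρ) ∧
  (∀ y ∈ Z1 D.lev σ, (∀ z ∈ D.ZC2 ρ, D.pair2 σ tr β z y = 0) → y ∈ B1 σ)

/-- `H³_c(ρ) × H⁰(σ) → k` is perfect. -/
def Perf3 : Prop :=
  (∀ z ∈ D.ZC3 ρ, (∀ w ∈ σ.invariants, D.pair3 σ tr β z w = 0) → z ∈ D.BC3 ρ) ∧
  (∀ w ∈ σ.invariants, (∀ z ∈ D.ZC3 ρ, D.pair3 σ tr β z w = 0) → w = 0)

/-- The package for an equivariant pairing `β : ρ × σ → k(χ)`: finiteness of `H¹`, vanishing of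
`H³` (global and local) for `ρ`, and perfectness of the three duality pairings. -/
def QQ : Prop :=
  Module.Finite k (HH1 D.lev ρ) ∧ (∀ v, Module.Finite k (HH1 (D.levH v) (D.repAt ρ v))) ∧
  H3Vanishes D.lev ρ ∧ (∀ v, H3Vanishes (D.levH v) (D.repAt ρ v)) ∧
  D.Perf1 ρ σ tr β ∧ D.Perf2 ρ σ tr β ∧ D.Perf3 ρ σ tr β

/-- The duality package for `ρ` and its twisted dual, in both directions. -/
def PP : Prop :=
  D.QQ ρ (dualTw D.chi ρ) tr (Module.Dual.eval k V) ∧
  D.QQ (dualTw D.chi ρ) ρ tr LinearMap.id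

/-- The local invariant at `v` induced by `tr`. -/
def invAt (v : D.P) : (D.H v × D.H v → k) →ₗ[k] k :=
  tr ∘ₗ LinearMap.inr k _ _ ∘ₗ LinearMap.single k (fun v : D.P => D.H v × D.H v → k) v

end Datum

/-! ## 7. Local duality package -/

section Local

variable {k : Type} [Field k] {H : Type} [Group H] (L : Lev H) (χ : H →* kˣ)
variable (inv : (H × H → k) →ₗ[k] k)
variable {V W : Type} [AddCommGroup V] [Module k V] [AddCommGroup W] [Module k W]
variable (ρ : Representation k H V) (σ : Representation k H W) (β : V →ₗ[k] W →ₗ[k] k)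

/-- `inv` kills the continuous `2`-coboundaries of `T = k(χ)`. -/
def InvOK : Prop := ∀ c ∈ B2 L (chiRep χ), inv c = 0

/-- `H⁰(ρ) × H²(σ) → k` is perfect. -/
def LPerf0 : Prop :=
  (∀ v ∈ ρ.invariants, (∀ y ∈ Z2 L σ, inv (cup02 β v y) = 0) → v = 0) ∧
  (∀ y ∈ Z2 L σ, (∀ v ∈ ρ.invariants, inv (cup02 β v y) = 0) → y ∈ B2 L σ)

/-- `H¹(ρ) × H¹(σ) → k` is perfect. -/
def LPerf1 : Prop :=
  (∀ b ∈ Z1 L ρ, (∀ y ∈ Z1 L σ, inv (cup11 β σ b y) = 0) → b ∈ B1 ρ) ∧
  (∀ y ∈ Z1 L σ, (∀ b ∈ Z1 L ρ, inv (cup11 β σ b y) = 0) → y ∈ B1 σ)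

/-- `H²(ρ) × H⁰(σ) → k` is perfect. -/
def LPerf2 : Prop :=
  (∀ b ∈ Z2 L ρ, (∀ w ∈ σ.invariants, inv (cup20 β σ b w) = 0) → b ∈ B2 L ρ) ∧
  (∀ w ∈ σ.invariants, (∀ b ∈ Z2 L ρ, inv (cup20 β σ b w) = 0) → w = 0)

/-- The local package for an equivariant pairing. -/
def LQQ : Prop :=
  Module.Finite k (HH1 L ρ) ∧ H3Vanishes L ρ ∧
  LPerf0 L inv ρ σ β ∧ LPerf1 L inv ρ σ β ∧ LPerf2 L inv ρ σ β

/-- The local duality package for `ρ` and its twisted dual. -/
def LPP : Prop :=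
  LQQ L inv ρ (dualTw χ ρ) (Module.Dual.eval k V) ∧
  LQQ L inv (dualTw χ ρ) ρ LinearMap.id

end Local

end Fermat.Agent.PT
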