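import Mathlib
import Fermat.Prelude.Def_GroupCohomology_ContinuousUnramified
import Fermat.Agent.PT.Defs
import Fermat.Agent.PT.Bridge.Endgame

/-!
# Pillar W3-PT (S55): the arithmetic datum and the frozen top-level interfaces (frame v1.1)

Frame = blueprint #634 amended by #649 (helper14): only `H³ = 0`, `θ¹`, `θ³` and the local
`H² × H⁰` duality are needed; `θ¹`, `θ³` are propagated from permutation modules to all modules
by one-sided exactness and presentations, the vanishing of `H³` by Sylow retract + filtration.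

* `levQ S`, `levFin`, `DQ p S` : the datum of `G_ℚ` with the levels "finite normal, unramified
  outside `S`", the finite places `q ∈ S`, the local groups `Gal(ℚ̄_q/ℚ_q)` with all finite levels.
* `VanAbs`, `LVanAbs`, `Theta1Abs`, `Theta3Abs`, `LTheta2Abs`, `Count`, `LocalAux` : pure algebra.
* `BridgeSha`, `DQGood` : frozen objects versus abstract ones.
* `ArithBase`           : the arithmetic base case (local and global class field theory).
-/

set_option autoImplicit false

open ExtCitation groupCohomology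

namespace Fermat.Agent.PT

/-- Global levels: fixing subgroups of the finite normal extensions unramified outside `S`. -/
def levQ (S : Finset Nat.Primes) : Lev GQ where
  sets := {N | ∃ F : IntermediateField ℚ (AlgebraicClosure ℚ),
    F.IsUnramifiedOutside S ∧ Normal ℚ F ∧ N = F.fixingSubgroup}
  nonempty := ⟨_, ⊥, IntermediateField.isUnramifiedOutside_bot S,
    Normal.of_algEquiv (IntermediateField.botEquiv ℚ (AlgebraicClosure ℚ)).symm, rfl⟩
  directed := by
    rintro _ ⟨F, hF, hn, rfl⟩ _ ⟨F', hF', hn', rfl⟩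
    exact ⟨_, ⟨F ⊔ F', hF.sup hF', @IntermediateField.normal_sup ℚ _ _ _ _ F F' hn hn', rfl⟩,
      by rw [IntermediateField.fixingSubgroup_sup]⟩

/-- All finite levels: fixing subgroups of the finite normal extensions of `ℚ`. -/
def levFin : Lev GQ where
  sets := {N | ∃ F : IntermediateField ℚ (AlgebraicClosure ℚ),
    FiniteDimensional ℚ F ∧ Normal ℚ F ∧ N = F.fixingSubgroup}
  nonempty := ⟨_, ⊥, inferInstance,
    Normal.of_algEquiv (IntermediateField.botEquiv ℚ (AlgebraicClosure ℚ)).symm, rfl⟩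
  directed := by
    rintro _ ⟨F, hF, hn, rfl⟩ _ ⟨F', hF', hn', rfl⟩
    exact ⟨_, ⟨F ⊔ F', @IntermediateField.finiteDimensional_sup ℚ _ _ _ _ F F' hF hF',
      @IntermediateField.normal_sup ℚ _ _ _ _ F F' hn hn', rfl⟩,
      by rw [IntermediateField.fixingSubgroup_sup]⟩

/-- The arithmetic datum: `G_ℚ`, levels unramified outside `S`, the finite places `q ∈ S`
(the archimedean place is dropped: it is invisible for odd `p`), local groups
`Gal(ℚ̄_q/ℚ_q)` with the levels pulled back from all finite levels of `G_ℚ`. -/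
noncomputable def DQ (p : ℕ) [Fact p.Prime] (S : Finset Nat.Primes) : Datum (ZMod p) where
  G := GQ
  lev := levQ S
  chi := cycloChar p
  P := ↥S
  H := fun q => primeLocalGaloisGroup q.1
  loc := fun q => primeLocalToGlobal q.1
  levH := fun q => levFin.comap (primeLocalToGlobal q.1)

/-! ## The vanishing / finiteness class -/

/-- `H¹` is finite dimensional and `H³ = 0` (global). -/
def Datum.VV {k : Type} [Field k] (D : Datum k) {V : Type} [AddCommGroup V] [Module k V]
    (ρ : Representation k D.G V) : Prop :=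
  Module.Finite k (HH1 D.lev ρ) ∧ H3Vanishes D.lev ρ

/-! ## Pure algebra interfaces -/

/-- VAN (pure algebra): finiteness of `H¹` and vanishing of `H³` propagate from the permutation
modules of open subgroups on which the character is trivial to all finite discrete modules
(retract of the induction from a `p`-Sylow level, unipotent filtration, half exactness). -/
def VanAbs : Prop :=
  ∀ (p : ℕ) [Fact p.Prime] (k : Type) [Field k] [CharP k p] (D : Datum k), D.Good →
    (∀ U : Subgroup D.G, D.lev.IsOpen U → (∀ u ∈ U, D.chi u = 1) → D.VV (permRep k U)) →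
    ∀ (V : Type) [AddCommGroup V] [Module k V] [FiniteDimensional k V]
      (ρ : Representation k D.G V), IsDisc D.lev ρ → D.VV ρ

/-- LVAN (pure algebra): the same for the vanishing of `H³` of one group. -/
def LVanAbs : Prop :=
  ∀ (p : ℕ) [Fact p.Prime] (k : Type) [Field k] [CharP k p] (H : Type) [Group H] (L : Lev H)
    (χ : H →* kˣ), L.Good → (∃ N ∈ L.sets, ∀ s ∈ N, χ s = 1) →
    (∀ U : Subgroup H, L.IsOpen U → (∀ u ∈ U, χ u = 1) → H3Vanishes L (permRep k U)) →
    ∀ (V : Type) [AddCommGroup V] [Module k V] [FiniteDimensional k V]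
      (ρ : Representation k H V), IsDisc L ρ → H3Vanishes L ρ

/-- THETA1 (pure algebra): `H¹_c(ρ^D) × H²(ρ) → k` is perfect for all `ρ` as soon as it is for
the permutation modules (left exactness of `H¹_c`, right exactness of `H²`, presentations). -/
def Theta1Abs : Prop :=
  ∀ (k : Type) [Field k] (D : Datum k) (tr : D.CC3 k →ₗ[k] k), D.Good → D.TrOK tr →
    (∀ (V : Type) [AddCommGroup V] [Module k V] [FiniteDimensional k V]
      (ρ : Representation k D.G V), IsDisc D.lev ρ → D.VV ρ) →
    (∀ U : Subgroup D.G, D.lev.IsOpen U → (∀ u ∈ U, D.chi u = 1) →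
      D.Perf1 (dualTw D.chi (permRep k U)) (permRep k U) tr LinearMap.id) →
    ∀ (V : Type) [AddCommGroup V] [Module k V] [FiniteDimensional k V]
      (ρ : Representation k D.G V), IsDisc D.lev ρ →
      D.Perf1 (dualTw D.chi ρ) ρ tr LinearMap.id

/-- THETA3 (pure algebra): `H³_c(ρ) × H⁰(ρ^D) → k` is perfect for all `ρ` as soon as it is for
the permutation modules (right exactness of `H³_c = coker λ²`, presentations). -/
def Theta3Abs : Prop :=
  ∀ (k : Type) [Field k] (D : Datum k) (tr : D.CC3 k →ₗ[k] k), D.Good → D.TrOK tr →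
    (∀ (V : Type) [AddCommGroup V] [Module k V] [FiniteDimensional k V]
      (ρ : Representation k D.G V), IsDisc D.lev ρ → D.VV ρ) →
    (∀ (v : D.P) (V : Type) [AddCommGroup V] [Module k V] [FiniteDimensional k V]
      (ρ : Representation k (D.H v) V), IsDisc (D.levH v) ρ → H3Vanishes (D.levH v) ρ) →
    (∀ U : Subgroup D.G, D.lev.IsOpen U → (∀ u ∈ U, D.chi u = 1) →
      D.Perf3 (permRep k U) (dualTw D.chi (permRep k U)) tr (Module.Dual.eval k _)) →
    ∀ (V : Type) [AddCommGroup V] [Module k V] [FiniteDimensional k V]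
      (ρ : Representation k D.G V), IsDisc D.lev ρ →
      D.Perf3 ρ (dualTw D.chi ρ) tr (Module.Dual.eval k V)

/-- LTHETA2 (pure algebra): the local duality `H²(ρ) × H⁰(ρ^D) → k` is perfect for all `ρ` as soon
as it is for the permutation modules. -/
def LTheta2Abs : Prop :=
  ∀ (k : Type) [Field k] (H : Type) [Group H] (L : Lev H) (χ : H →* kˣ)
    (inv : (H × H → k) →ₗ[k] k), L.Good → (∃ N ∈ L.sets, ∀ s ∈ N, χ s = 1) → InvOK L χ inv →
    (∀ (V : Type) [AddCommGroup V] [Module k V] [FiniteDimensional k V]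
      (ρ : Representation k H V), IsDisc L ρ → H3Vanishes L ρ) →
    (∀ U : Subgroup H, L.IsOpen U → (∀ u ∈ U, χ u = 1) →
      LPerf2 L inv (permRep k U) (dualTw χ (permRep k U)) (Module.Dual.eval k _)) →
    ∀ (V : Type) [AddCommGroup V] [Module k V] [FiniteDimensional k V]
      (ρ : Representation k H V), IsDisc L ρ →
      LPerf2 L inv ρ (dualTw χ ρ) (Module.Dual.eval k V)

/-- COUNT (pure algebra): `dim Ш²(ρ) = dim Ш¹(ρ^D)` from `θ¹`, `θ³`, the local dualities,
the vanishing of `H³(ρ)` and the finiteness of `H¹(ρ^D)`. -/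
def Count : Prop :=
  ∀ (k : Type) [Field k] (D : Datum k) (tr : D.CC3 k →ₗ[k] k), D.Good → D.TrOK tr →
    ∀ (V : Type) [AddCommGroup V] [Module k V] [FiniteDimensional k V]
      (ρ : Representation k D.G V), IsDisc D.lev ρ →
      D.VV ρ → D.VV (dualTw D.chi ρ) →
      D.Perf1 (dualTw D.chi ρ) ρ tr LinearMap.id →
      D.Perf3 ρ (dualTw D.chi ρ) tr (Module.Dual.eval k V) →
      (∀ v, LPerf2 (D.levH v) (D.invAt tr v) (D.repAt ρ v) (dualTw (D.chiAt v) (D.repAt ρ v))
        (Module.Dual.eval k V)) →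
      Module.Finite k (D.Sha2 ρ) ∧ Module.Finite k (D.Sha1 (dualTw D.chi ρ)) ∧
        Module.finrank k (D.Sha2 ρ) = Module.finrank k (D.Sha1 (dualTw D.chi ρ))

/-- LOCAL-AUX (pure algebra, easy): the local data induced by a good global datum. -/
def LocalAux : Prop :=
  ∀ (k : Type) [Field k] (D : Datum k) (tr : D.CC3 k →ₗ[k] k), D.Good → D.TrOK tr →
    ∀ v : D.P, (∃ N ∈ (D.levH v).sets, ∀ s ∈ N, D.chiAt v s = 1) ∧
      InvOK (D.levH v) (D.chiAt v) (D.invAt tr v) ∧
      (∀ (V : Type) [AddCommGroup V] [Module k V] (ρ : Representation k D.G V),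
        IsDisc D.lev ρ → IsDisc (D.levH v) (D.repAt ρ v)) ∧
      (∀ (V : Type) [AddCommGroup V] [Module k V] [FiniteDimensional k V]
        (ρ : Representation k D.G V), IsDisc D.lev ρ →
        FiniteDimensional k (Module.Dual k V) ∧ IsDisc D.lev (dualTw D.chi ρ))

/-! ## Bridge and arithmetic interfaces -/

/-- The arithmetic datum is good. -/
def DQGood : Prop :=
  ∀ (p : ℕ) [Fact p.Prime] (S : Finset Nat.Primes), pPrime p ∈ S → (DQ p S).Good

/-- BRIDGE: the frozen `sha₁`, `sha₂` are the abstract `Ш¹`, `Ш²` of the arithmetic datum. -/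
def BridgeSha : Prop :=
  ∀ (p : ℕ) [Fact p.Prime] (S : Finset Nat.Primes), p ≠ 2 → pPrime p ∈ S →
    ∀ (M : Rep (ZMod p) GQ) [FiniteDimensional (ZMod p) M],
      (∀ m : M, ∃ F : IntermediateField ℚ (AlgebraicClosure ℚ), FiniteDimensional ℚ F ∧
        ∀ s ∈ F.fixingSubgroup, M.ρ s m = m) →
      (∀ q : Nat.Primes, q ∉ S → ∀ A : ValuationSubring (AlgebraicClosure ℚ),
        A.LiesOverPrime (q : ℕ) → ∀ g ∈ A.inertiaSubgroupIn ℚ, M.ρ g = 1) →
      IsDisc (DQ p S).lev M.ρ ∧
      Nonempty (sha₁ S (M.dualTwist (cycloChar p)) ≃ₗ[ZMod p]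
        (DQ p S).Sha1 (dualTw (cycloChar p) M.ρ)) ∧
      Nonempty (sha₂ S M ≃ₗ[ZMod p] (DQ p S).Sha2 M.ρ)

/-- ARITH-BASE (frame v1.1): the arithmetic base case. There is a trace functional on the cone
`3`-cochains of `μ_p` such that, for the permutation modules `I_U = Ind_L^ℚ 𝔽_p`
(`U = G_L`, `ℚ(μ_p) ⊆ L ⊆ ℚ_S`): `H¹` is finite, `H³ = 0`, `θ¹` and `θ³` are perfect; and for the
local permutation modules `Ind_E^{ℚ_q} 𝔽_p` (`μ_p ⊆ E`, `q ∈ S`): `H³ = 0` and the local duality
`H² × H⁰` is perfect for the local invariant induced by the trace. -/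
def ArithBase : Prop :=
  ∀ (p : ℕ) [Fact p.Prime] (S : Finset Nat.Primes), p ≠ 2 → pPrime p ∈ S →
    ∃ tr : (DQ p S).CC3 (ZMod p) →ₗ[ZMod p] ZMod p, (DQ p S).TrOK tr ∧
      (∀ U : Subgroup (DQ p S).G, (DQ p S).lev.IsOpen U → (∀ u ∈ U, (DQ p S).chi u = 1) →
        (DQ p S).VV (permRep (ZMod p) U) ∧
        (DQ p S).Perf1 (dualTw (DQ p S).chi (permRep (ZMod p) U)) (permRep (ZMod p) U) tr
          LinearMap.id ∧
        (DQ p S).Perf3 (permRep (ZMod p) U) (dualTw (DQ p S).chi (permRep (ZMod p) U)) tr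
          (Module.Dual.eval (ZMod p) _)) ∧
      (∀ (q : (DQ p S).P) (U : Subgroup ((DQ p S).H q)), ((DQ p S).levH q).IsOpen U →
        (∀ u ∈ U, (DQ p S).chiAt q u = 1) →
        H3Vanishes ((DQ p S).levH q) (permRep (ZMod p) U) ∧
        LPerf2 ((DQ p S).levH q) ((DQ p S).invAt tr q) (permRep (ZMod p) U)
          (dualTw ((DQ p S).chiAt q) (permRep (ZMod p) U)) (Module.Dual.eval (ZMod p) _))

end Fermat.Agent.PT
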