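import Mathlib
import Fermat.Prelude.Def_GroupCohomology_ContinuousUnramified
import Fermat.Agent.PT.Defs
import Fermat.Agent.PT.Bridge.Endgame
import Fermat.Agent.PT.Iface

/-!
# Pillar W3-PT (S55): frame v1.2 — the third duality is not needed

Observation (helper93): the count `dim Ш²(ρ) = dim Ш¹(ρ^D)` follows from the first duality
`H¹_c(ρ^D) × H²(ρ) → k` and the injectivity of the local maps `H²_v(ρ) → H⁰_v(ρ^D)^*` alone:
`H¹_c(ρ^D) → Ш¹(ρ^D)` is onto with kernel `K` = the classes of the `(0, b)`, `b_v ∈ H⁰_v(ρ^D)`,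
and `K^⊥ = Ш²(ρ)`.  So `Theta3Abs` and the `Perf3` part of `ArithBase` are dropped.

* `Count2`     : the count without `Perf3` (implies `Count`).
* `ArithBase2` : the arithmetic base case without `Perf3` (implied by `ArithBase`).
-/

set_option autoImplicit false

open ExtCitation groupCohomology

namespace Fermat.Agent.PT

/-- COUNT, frame v1.2: `dim Ш²(ρ) = dim Ш¹(ρ^D)` from `θ¹`, the local dualities and the
finiteness of `H¹(ρ^D)`. -/
def Count2 : Prop :=
  ∀ (k : Type) [Field k] (D : Datum k) (tr : D.CC3 k →ₗ[k] k), D.Good → D.TrOK tr →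
    ∀ (V : Type) [AddCommGroup V] [Module k V] [FiniteDimensional k V]
      (ρ : Representation k D.G V), IsDisc D.lev ρ →
      D.VV (dualTw D.chi ρ) →
      D.Perf1 (dualTw D.chi ρ) ρ tr LinearMap.id →
      (∀ v, LPerf2 (D.levH v) (D.invAt tr v) (D.repAt ρ v) (dualTw (D.chiAt v) (D.repAt ρ v))
        (Module.Dual.eval k V)) →
      Module.Finite k (D.Sha2 ρ) ∧ Module.Finite k (D.Sha1 (dualTw D.chi ρ)) ∧
        Module.finrank k (D.Sha2 ρ) = Module.finrank k (D.Sha1 (dualTw D.chi ρ))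

theorem count_of_count2 (h : Count2) : Count :=
  fun k _ D tr hg htr V _ _ _ ρ hd _ hVd h1 _ hL => h k D tr hg htr V ρ hd hVd h1 hL

/-- ARITH-BASE, frame v1.2: the arithmetic base case without the third duality. -/
def ArithBase2 : Prop :=
  ∀ (p : ℕ) [Fact p.Prime] (S : Finset Nat.Primes), p ≠ 2 → pPrime p ∈ S →
    ∃ tr : (DQ p S).CC3 (ZMod p) →ₗ[ZMod p] ZMod p, (DQ p S).TrOK tr ∧
      (∀ U : Subgroup (DQ p S).G, (DQ p S).lev.IsOpen U → (∀ u ∈ U, (DQ p S).chi u = 1) →
        (DQ p S).VV (permRep (ZMod p) U) ∧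
        (DQ p S).Perf1 (dualTw (DQ p S).chi (permRep (ZMod p) U)) (permRep (ZMod p) U) tr
          LinearMap.id) ∧
      (∀ (q : (DQ p S).P) (U : Subgroup ((DQ p S).H q)), ((DQ p S).levH q).IsOpen U →
        (∀ u ∈ U, (DQ p S).chiAt q u = 1) →
        H3Vanishes ((DQ p S).levH q) (permRep (ZMod p) U) ∧
        LPerf2 ((DQ p S).levH q) ((DQ p S).invAt tr q) (permRep (ZMod p) U)
          (dualTw ((DQ p S).chiAt q) (permRep (ZMod p) U)) (Module.Dual.eval (ZMod p) _))

theorem arithBase2_of_arithBase (h : ArithBase) : ArithBase2 := by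
  intro p _ S hp2 hpS
  obtain ⟨tr, htr, hglob, hloc⟩ := h p S hp2 hpS
  exact ⟨tr, htr, fun U hU hχ => ⟨(hglob U hU hχ).1, (hglob U hU hχ).2.1⟩, hloc⟩

end Fermat.Agent.PT
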