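import Mathlib
import Fermat.Prelude.Def_GroupCohomology_ContinuousUnramified
import Fermat.Agent.PT.Defs
import Fermat.Agent.PT.Bridge.Endgame
import Fermat.Agent.PT.Iface
import Fermat.Agent.PT.Iface2

/-!
# Pillar W3-PT (S55): the conditional assembly, frame v1.2 (no third duality)

`shaFinrank_of2 : VanAbs → LVanAbs → Theta1Abs → LTheta2Abs → Count2 → LocalAux →
  DQGood → BridgeSha → ArithBase2 → ShaFinrankStatement`,
and `Fermat.Agent.PT.s55_of_shaFinrank` (helper79) gives the frozen statement S55.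
-/

set_option autoImplicit false

open ExtCitation groupCohomology

namespace Fermat.Agent.PT

theorem shaFinrank_of2 (hVan : VanAbs) (hLVan : LVanAbs) (hT1 : Theta1Abs)
    (hLT2 : LTheta2Abs) (hC : Count2) (hX : LocalAux) (hD : DQGood) (hB : BridgeSha)
    (hA : ArithBase2) : ShaFinrankStatement := by
  intro p _ hp2 S hpS M _ hsm hMur
  obtain ⟨hdisc, ⟨e1⟩, ⟨e2⟩⟩ := hB p S hp2 hpS M hsm hMur
  obtain ⟨tr, htr, hglob, hloc⟩ := hA p S hp2 hpS
  have hgood := hD p S hpS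
  have hVV : ∀ (V : Type) [AddCommGroup V] [Module (ZMod p) V] [FiniteDimensional (ZMod p) V]
      (ρ : Representation (ZMod p) (DQ p S).G V), IsDisc (DQ p S).lev ρ → (DQ p S).VV ρ :=
    hVan p (ZMod p) (DQ p S) hgood (fun U hU hχ => (hglob U hU hχ).1)
  have hLV : ∀ (v : (DQ p S).P) (V : Type) [AddCommGroup V] [Module (ZMod p) V]
      [FiniteDimensional (ZMod p) V] (ρ : Representation (ZMod p) ((DQ p S).H v) V),
      IsDisc ((DQ p S).levH v) ρ → H3Vanishes ((DQ p S).levH v) ρ := fun v =>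
    hLVan p (ZMod p) _ ((DQ p S).levH v) ((DQ p S).chiAt v) (hgood.2.1 v)
      (hX (ZMod p) (DQ p S) tr hgood htr v).1 (fun U hU hχ => (hloc v U hU hχ).1)
  have hθ1 := hT1 (ZMod p) (DQ p S) tr hgood htr hVV (fun U hU hχ => (hglob U hU hχ).2)
    M M.ρ hdisc
  have hL2 : ∀ v, LPerf2 ((DQ p S).levH v) ((DQ p S).invAt tr v) ((DQ p S).repAt M.ρ v)
      (dualTw ((DQ p S).chiAt v) ((DQ p S).repAt M.ρ v)) (Module.Dual.eval (ZMod p) M) := by
    intro v
    obtain ⟨h1, h2, h3, -⟩ := hX (ZMod p) (DQ p S) tr hgood htr v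
    exact hLT2 (ZMod p) _ ((DQ p S).levH v) ((DQ p S).chiAt v) ((DQ p S).invAt tr v)
      (hgood.2.1 v) h1 h2 (hLV v) (fun U hU hχ => (hloc v U hU hχ).2) M _ (h3 M M.ρ hdisc)
  obtain ⟨v₀⟩ : Nonempty (DQ p S).P := hgood.2.2.1
  obtain ⟨hfd, hdiscD⟩ := (hX (ZMod p) (DQ p S) tr hgood htr v₀).2.2.2 M M.ρ hdisc
  have hVVd : (DQ p S).VV (dualTw (DQ p S).chi M.ρ) :=
    hVV (Module.Dual (ZMod p) M) (dualTw (DQ p S).chi M.ρ) hdiscD
  obtain ⟨f2, f1, heq⟩ := hC (ZMod p) (DQ p S) tr hgood htr M M.ρ hdisc hVVd hθ1 hL2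
  have f1' : Module.Finite (ZMod p) ((DQ p S).Sha1 (dualTw (cycloChar p) M.ρ)) := f1
  refine ⟨Module.Finite.equiv e1.symm, Module.Finite.equiv e2.symm, ?_⟩
  rw [e1.finrank_eq, e2.finrank_eq]
  exact heq.symm

end Fermat.Agent.PT
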